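import Fermat.Agent.S36R.Main
import Fermat.Agent.S36.E.Symm.Big
import Fermat.Agent.S36.Kron.KMain
import Fermat.Agent.S36.StepA.InertiaTrans

/-!
# S43 / Ctrl / Frob, file `Basic`: the semilinear action of the decomposition group on `FF (K0 A) N`

`σ` in the decomposition group of `A`.
* `resK0 σ : K0 A →+* K0 A`;
* `PhiF σ N : FF (K0 A) N →+* FF (K0 A) N` (coefficientwise), `bc0_PhiF`;
* `comap_W` : the three vertical valuation rings of `S : NormC.Setup A M q` are stable;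
* `PhiF_mem_RR` : the charts `R₀`, `R₁` are stable.
-/

set_option autoImplicit false
set_option linter.unusedSectionVars false

noncomputable section

namespace Fermat.Agent.S43.Ctrl.Frob

open AlgebraicCurve ModularCurve Fermat.Agent.S24 Fermat.Agent.GAL Fermat.Agent.GAL.Desc
  Fermat.Agent.GAL.Gauss Fermat.Agent.S36R Fermat.Agent.S36R.NormC Fermat.Agent.S36R.Bridge

variable {A : ValuationSubring Kbar} {q : ℕ}

theorem map_mem_K0 (hq : q.Prime) (hA : A.LiesOverPrime q) {σ : Kbar ≃ₐ[ℚ] Kbar}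
    (hσ : σ ∈ A.decompositionSubgroup ℚ) {x : Kbar} (hx : x ∈ K0 A) : σ x ∈ K0 A := by
  rw [mem_K0] at hx ⊢
  intro τ hτ
  have h1 : σ⁻¹ * τ * σ⁻¹⁻¹ ∈ A.inertiaSubgroupIn ℚ :=
    PT.Local.ine_normal ⟨A, q, hq, hA⟩ ((A.decompositionSubgroup ℚ).inv_mem hσ) hτ
  rw [inv_inv] at h1
  have h2 := hx _ h1
  have h3 : σ ((σ⁻¹ * τ * σ) x) = τ (σ x) := by
    show σ (σ⁻¹ (τ (σ x))) = τ (σ x)
    exact σ.apply_symm_apply _
  rw [← h3, h2]

/-- the restriction of `σ` to `K0 A`. -/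
def resK0 (hq : q.Prime) (hA : A.LiesOverPrime q) (σ : Kbar ≃ₐ[ℚ] Kbar)
    (hσ : σ ∈ A.decompositionSubgroup ℚ) : K0 A →+* K0 A :=
  ((σ : Kbar →+* Kbar).comp (algebraMap (K0 A) Kbar)).codRestrict (K0 A)
    (fun x => map_mem_K0 hq hA hσ x.2)

variable (hq : q.Prime) (hA : A.LiesOverPrime q) (σ : Kbar ≃ₐ[ℚ] Kbar)
  (hσ : σ ∈ A.decompositionSubgroup ℚ)

@[simp] theorem coe_resK0 (x : K0 A) : ((resK0 hq hA σ hσ x : K0 A) : Kbar) = σ (x : Kbar) := rfl

/-- the coefficientwise action of `σ` on `FF (K0 A) N`. -/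
def PhiF (N : ℕ) : FF (K0 A) N →+* FF (K0 A) N :=
  bc (resK0 hq hA σ hσ) (modularFunctionFieldFull N)

theorem bc0_PhiF (N : ℕ) (g : FF (K0 A) N) :
    bc0 A N (PhiF hq hA σ hσ N g) = arithmeticGalois (modularFunctionFieldFull N) σ • bc0 A N g := by
  apply Subtype.ext
  rw [coe_arithmeticGalois_smul, coe_bc0, coe_bc0]
  ext n
  simp only [coeffMap_coeff, PhiF, coe_bc]
  rfl

theorem PhiF_algebraMap (N : ℕ) (a : K0 A) :
    PhiF hq hA σ hσ N (algebraMap (K0 A) (FF (K0 A) N) a)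
      = algebraMap (K0 A) (FF (K0 A) N) (resK0 hq hA σ hσ a) :=
  bc_algebraMap _ _ a

/-! ### the vertical valuation rings -/

section W

variable {M : ℕ} [NeZero M] [NeZero q] (S : Setup A M q)

/-- `PhiF` at level `M q q`. -/
abbrev PhiS : S.F →+* S.F := PhiF S.hq S.hA σ hσ (M * q * q)

theorem e0_PhiS (z : S.F) :
    S.e0 (PhiS σ hσ S z) = coeffMap (σ : Kbar →+* Kbar) (S.e0 z) := by
  rw [S.e0_apply, S.e0_apply, bc0_PhiF, coe_arithmeticGalois_smul]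

theorem e2_PhiS (z : S.F) :
    S.e2 (PhiS σ hσ S z) = coeffMap (σ : Kbar →+* Kbar) (S.e2 z) := by
  rw [S.e2_apply, S.e2_apply, bc0_PhiF]
  have h1 := Fermat.Agent.S36.StepA.IsW2.galois S.hq S.hqM S.hW2 σ (bc0 A (M * q * q) z)
  have h2 : S.W2 (arithmeticGalois (modularFunctionFieldFull (M * q * q)) σ • bc0 A (M * q * q) z)
      = arithmeticGalois (modularFunctionFieldFull (M * q * q)) σ • S.W2 (bc0 A (M * q * q) z) := h1
  rw [h2, coe_arithmeticGalois_smul]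

/-- there is `σ'` in the decomposition group with `e1 ∘ Φ = σ' ∘ e1`. -/
theorem exists_e1_PhiS : ∃ σ' : Kbar ≃ₐ[ℚ] Kbar, σ' ∈ A.decompositionSubgroup ℚ ∧ ∀ z : S.F,
    S.e1 (PhiS σ hσ S z) = coeffMap (σ' : Kbar →+* Kbar) (S.e1 z) := by
  have hζ' : IsPrimitiveRoot (σ S.ζ) q := S.hζ.map_of_injective σ.injective
  obtain ⟨τ, hτ, hτζ⟩ := Fermat.Agent.S36.StepA.exists_inertia_map_zeta A S.hq S.hA hζ' S.hζ
  have hτD : τ ∈ A.decompositionSubgroup ℚ := by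
    obtain ⟨t, -, rfl⟩ := hτ
    exact t.2
  refine ⟨τ * σ, (A.decompositionSubgroup ℚ).mul_mem hτD hσ, fun z => ?_⟩
  have hfix : (τ * σ) S.ζ = S.ζ := hτζ
  have hmid : Fermat.Agent.S36.StepA.IsMid M q ((τ * σ) S.ζ)
      ((map_ne_zero (τ * σ)).2 (S.hζ.ne_zero S.hq.ne_zero)) S.ι := by
    have := S.hι
    simp only [hfix]
    exact this
  have h1 := Fermat.Agent.S36.StepA.IsMid.galois S.hq S.hqM S.hι (τ * σ) hmid
    (bc0 A (M * q * q) z)
  rw [S.e1_apply, S.e1_apply, h1, bc0_PhiF]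
  congr 1
  have h2 : arithmeticGalois (modularFunctionFieldFull (M * q * q)) (τ * σ) • bc0 A (M * q * q) z
      = arithmeticGalois (modularFunctionFieldFull (M * q * q)) τ •
        (arithmeticGalois (modularFunctionFieldFull (M * q * q)) σ • bc0 A (M * q * q) z) := by
    rw [map_mul, mul_smul]
  have h3 : arithmeticGalois (modularFunctionFieldFull (M * q * q)) τ •
        (arithmeticGalois (modularFunctionFieldFull (M * q * q)) σ • bc0 A (M * q * q) z)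
      = arithmeticGalois (modularFunctionFieldFull (M * q * q)) σ • bc0 A (M * q * q) z := by
    rw [← bc0_PhiF S.hq S.hA σ hσ]
    exact gal_smul_bc0 A _ hτ _
  exact (h2.trans h3).symm

/-- **the `W i` are stable.** -/
theorem comap_W (i : Fin 3) : (S.W i).comap (PhiS σ hσ S) = S.W i := by
  ext z
  rw [ValuationSubring.mem_comap]
  fin_cases i
  · show S.e0 (PhiS σ hσ S z) ∈ gRing A ↔ S.e0 z ∈ gRing A
    rw [e0_PhiS]
    exact Fermat.Agent.S36.E.coeffMap_mem_gRing_iff A ⟨σ, hσ⟩ _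
  · show S.e1 (PhiS σ hσ S z) ∈ gRing A ↔ S.e1 z ∈ gRing A
    obtain ⟨σ', hσ', h⟩ := exists_e1_PhiS σ hσ S
    rw [h]
    exact Fermat.Agent.S36.E.coeffMap_mem_gRing_iff A ⟨σ', hσ'⟩ _
  · show S.e2 (PhiS σ hσ S z) ∈ gRing A ↔ S.e2 z ∈ gRing A
    rw [e2_PhiS]
    exact Fermat.Agent.S36.E.coeffMap_mem_gRing_iff A ⟨σ, hσ⟩ _

end W

end Fermat.Agent.S43.Ctrl.Frob
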