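import Fermat.Agent.S43.Ctrl.Frob.Basic

/-!
# S43 / Ctrl / Frob, file `Chart`: the charts `R₀`, `R₁` are stable under `PhiS`
-/

set_option autoImplicit false
set_option linter.unusedSectionVars false

noncomputable section

namespace Fermat.Agent.S43.Ctrl.Frob

open AlgebraicCurve ModularCurve Fermat.Agent.S24 Fermat.Agent.GAL Fermat.Agent.GAL.Desc
  Fermat.Agent.GAL.Gauss Fermat.Agent.S36R Fermat.Agent.S36R.NormC Fermat.Agent.S36R.Bridge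

variable {A : ValuationSubring Kbar} {q : ℕ}
variable (hq : q.Prime) (hA : A.LiesOverPrime q) (σ : Kbar ≃ₐ[ℚ] Kbar)
  (hσ : σ ∈ A.decompositionSubgroup ℚ)

theorem resK0_mem_O0 (a : O0 A) : resK0 hq hA σ hσ (a : K0 A) ∈ O0 A :=
  Fermat.Agent.DR.Conc.Galois_mem A ⟨σ, hσ⟩ _ a.2

theorem PhiF_jF (N : ℕ) :
    PhiF hq hA σ hσ N (Tors.Dict.jF (K0 A) N) = Tors.Dict.jF (K0 A) N := by
  apply bc0_injective A N
  rw [bc0_PhiF, bc0_jF]
  exact gal_smul_jF N σ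

theorem PhiF_mem_adjoin (N : ℕ) {c : FF (K0 A) N} (hc : PhiF hq hA σ hσ N c = c)
    {z : FF (K0 A) N} (hz : z ∈ Algebra.adjoin (O0 A) {c}) :
    PhiF hq hA σ hσ N z ∈ Algebra.adjoin (O0 A) {c} := by
  induction hz using Algebra.adjoin_induction with
  | mem x hx =>
    rw [Set.mem_singleton_iff.1 hx, hc]
    exact Algebra.subset_adjoin (Set.mem_singleton c)
  | algebraMap r =>
    have h1 : algebraMap (O0 A) (FF (K0 A) N) r = algebraMap (K0 A) (FF (K0 A) N) (r : K0 A) := rfl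
    rw [h1, PhiF_algebraMap]
    exact Subalgebra.algebraMap_mem _ (⟨_, resK0_mem_O0 hq hA σ hσ r⟩ : O0 A)
  | add x y _ _ hx hy => rw [map_add]; exact add_mem hx hy
  | mul x y _ _ hx hy => rw [map_mul]; exact mul_mem hx hy

theorem PhiF_mem_RR (N : ℕ) {c : FF (K0 A) N} (hc : PhiF hq hA σ hσ N c = c)
    {z : FF (K0 A) N} (hz : z ∈ RR (O0 A) c) : PhiF hq hA σ hσ N z ∈ RR (O0 A) c := by
  rw [mem_RR] at hz ⊢
  let φB : Algebra.adjoin (O0 A) {c} →+* Algebra.adjoin (O0 A) {c} :=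
    ((PhiF hq hA σ hσ N).comp (algebraMap (Algebra.adjoin (O0 A) {c}) (FF (K0 A) N))).codRestrict
      (Algebra.adjoin (O0 A) {c}) (fun x => PhiF_mem_adjoin hq hA σ hσ N hc x.2)
  exact hz.map_of_comp_eq φB (PhiF hq hA σ hσ N) (by ext x; rfl)

variable {M : ℕ} [NeZero M] [NeZero q] (S : Setup A M q)

theorem PhiS_mem_R₀ {z : S.F} (hz : z ∈ S.R₀) : PhiS σ hσ S z ∈ S.R₀ :=
  PhiF_mem_RR S.hq S.hA σ hσ _ (PhiF_jF S.hq S.hA σ hσ _) hz

theorem PhiS_mem_R₁ {z : S.F} (hz : z ∈ S.R₁) : PhiS σ hσ S z ∈ S.R₁ :=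
  PhiF_mem_RR S.hq S.hA σ hσ _ (by rw [map_inv₀, PhiF_jF]) hz

end Fermat.Agent.S43.Ctrl.Frob
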