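import Fermat.Agent.S43.Ctrl.Frob.Triple
import Fermat.Agent.S43.Ctrl.KerAbs
import Fermat.Agent.S43.Ctrl.DeepRep
import Fermat.Agent.S36R.Deliver

/-!
# S43 / Ctrl / Frob, file `Deep`: the fields `deep`, `stab`, `unit` of the concrete `AbsY`
-/

set_option autoImplicit false
set_option linter.unusedSectionVars false

noncomputable section

namespace Fermat.Agent.S43.Ctrl.Frob

open AlgebraicCurve ModularCurve Fermat.Agent.S24 Fermat.Agent.GAL Fermat.Agent.GAL.Desc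
  Fermat.Agent.GAL.Gauss Fermat.Agent.S36R Fermat.Agent.S36R.NormC Fermat.Agent.S36R.Bridge
  Fermat.Agent.S36.StepA

variable {A : ValuationSubring Kbar} {q : ℕ} (σ : Kbar ≃ₐ[ℚ] Kbar)
  (hσ : σ ∈ A.decompositionSubgroup ℚ) {M : ℕ} [NeZero M] [NeZero q] (S : Setup A M q)

/-- `Φ` on units. -/
abbrev PhiU : S.Fˣ →* S.Fˣ := Units.map (PhiS σ hσ S : S.F →* S.F)

theorem map_bc0_PhiU (f : S.Fˣ) :
    Units.map (bc0 A (M * q * q) : S.F →* FN (M * q * q)) (PhiU σ hσ S f) =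
      semilinearUnits (arithmeticGalois (modularFunctionFieldFull (M * q * q)) σ)
        (Units.map (bc0 A (M * q * q) : S.F →* FN (M * q * q)) f) := by
  apply Units.ext
  exact bc0_PhiF S.hq S.hA σ hσ _ _

theorem PhiU_kummer {n : ℕ} {f : S.Fˣ}
    (hf : Units.map (bc0 A (M * q * q) : S.F →* FN (M * q * q)) f ∈
      kummerUnits Kbar (FN (M * q * q)) n) :
    Units.map (bc0 A (M * q * q) : S.F →* FN (M * q * q)) (PhiU σ hσ S f) ∈
      kummerUnits Kbar (FN (M * q * q)) n := by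
  rw [map_bc0_PhiU]
  exact semilinearUnits_mem _ _ hf

theorem mk_PhiU {n : ℕ} {f : S.Fˣ}
    (hf : Units.map (bc0 A (M * q * q) : S.F →* FN (M * q * q)) f ∈
      kummerUnits Kbar (FN (M * q * q)) n) :
    (KV.mk ⟨_, PhiU_kummer σ hσ S hf⟩ : KV Kbar (FN (M * q * q)) n) = σ • KV.mk ⟨_, hf⟩ := by
  rw [KV.galois_smul_mk]
  congr 1

theorem isRep_PhiU {n : ℕ} {x : KV Kbar (FN (M * q * q)) n} {f : S.Fˣ} (h : IsRep S n x f) :
    IsRep S n (σ • x) (PhiU σ hσ S f) := by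
  obtain ⟨hf, rfl⟩ := h
  exact ⟨PhiU_kummer σ hσ S hf, mk_PhiU σ hσ S hf⟩

theorem isU_PhiS {i : Fin 3} {z : S.F} (h : IsU (S.W i) z) : IsU (S.W i) (PhiS σ hσ S z) :=
  (isU_comap (comap_W σ hσ S i)).1 h

include hσ in
/-- **field `stab`.** -/
theorem stab (n : ℕ) (i : Fin 3) (x : KV Kbar (FN (M * q * q)) n) (hx : x ∈ DD S n i) :
    frob n (M * q * q) σ x ∈ DD S n i := by
  obtain ⟨f, hf, hfu, h, hh⟩ := hx
  refine ⟨PhiU σ hσ S f, isRep_PhiU σ hσ S hf, fun j => isU_PhiS σ hσ S (hfu j),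
    PhiS σ hσ S h, ?_⟩
  have := (cg_comap (comap_W σ hσ S i)).1 hh
  rwa [map_pow] at this

/-- the valuations of `Φ z / z`. -/
theorem isU_PhiS_div (i : Fin 3) {z : S.F} (hz : z ≠ 0) : IsU (S.W i) (PhiS σ hσ S z / z) := by
  have hq0 : (q : S.F) ≠ 0 := Nat.cast_ne_zero.2 S.hq.ne_zero
  have key : ∀ (m : ℕ) (x : ℤ), 0 < m → IsU (S.W i) (z ^ m / (q : S.F) ^ x) →
      IsU (S.W i) (PhiS σ hσ S z / z) := by
    intro m x hm h
    have h1 := isU_PhiS σ hσ S h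
    rw [map_div₀, map_pow, map_zpow₀, map_natCast] at h1
    have h2 := h1.div h
    have e : PhiS σ hσ S z ^ m / (q : S.F) ^ x / (z ^ m / (q : S.F) ^ x)
        = (PhiS σ hσ S z / z) ^ m := by
      have := zpow_ne_zero x hq0
      have := pow_ne_zero m hz
      rw [div_pow]
      field_simp
    rw [e] at h2
    exact h2.of_pow hm
  fin_cases i
  · obtain ⟨x, hx⟩ := S.good.eW0 z hz
    exact key 1 x one_pos (by rw [pow_one]; exact hx)
  · obtain ⟨x, hx⟩ := S.good.eW1 z hz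
    exact key (q - 1) x (by have := S.hq.two_le; omega) hx
  · obtain ⟨x, hx⟩ := S.good.eW2 z hz
    exact key 1 x one_pos (by rw [pow_one]; exact hx)

include hσ in
/-- **field `unit`.** -/
theorem unit {n : ℕ} (hn : n ≠ 0) (x : KV Kbar (FN (M * q * q)) n) (hx : x ∈ VI A (M * q * q) n) :
    frob n (M * q * q) σ x - x ∈ UU S n := by
  obtain ⟨f, -, hf, rfl⟩ := exists_kummerUnit0_rep A (M * q * q) hn x hx
  have h1 : IsRep S n (KV.mk ⟨_, hf⟩) f := ⟨hf, rfl⟩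
  refine ⟨PhiU σ hσ S f * f⁻¹, ?_, fun i => ?_⟩
  · rw [sub_eq_add_neg]
    exact (isRep_PhiU σ hσ S h1).add h1.neg
  · rw [Units.val_mul, Units.val_inv_eq_inv_val, ← div_eq_mul_inv]
    exact isU_PhiS_div σ hσ S i f.ne_zero

theorem isRep_nsmul {n : ℕ} {x : KV Kbar (FN (M * q * q)) n} {f : S.Fˣ} (h : IsRep S n x f)
    (m : ℕ) : IsRep S n (m • x) (f ^ m) := by
  induction m with
  | zero => rw [zero_smul, pow_zero]; exact IsRep.zero
  | succ m ih => rw [succ_nsmul, pow_succ]; exact ih.add h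

/-- **the kernel theorem, concrete form.** -/
theorem deep_conc (hneat : 4 ∣ M ∨ 9 ∣ M) {σ : Kbar ≃ₐ[ℚ] Kbar} (hF : A.IsFrobeniusAt σ q) {n : ℕ}
    (hn : 0 < n) (hqn : n.Coprime q) (f : S.Fˣ)
    (hf : Units.map (bc0 A (M * q * q) : S.F →* FN (M * q * q)) f ∈
      kummerUnits Kbar (FN (M * q * q)) n)
    (hu : ∀ i, IsU (S.W i) (f : S.F)) (hroot : ∀ i, ∃ h : S.F, Cg (S.W i) (h ^ n) (f : S.F)) :
    σ • σ • (KV.mk ⟨_, hf⟩ : KV Kbar (FN (M * q * q)) n) = (q * q) • KV.mk ⟨_, hf⟩ := by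
  have hD := hF.mem_decompositionSubgroup
  have h : Deliver S := deliver_of_rest S hneat (rest S hneat)
  have hqn' : ¬ q ∣ n := fun h' =>
    S.hq.one_lt.ne' (Nat.eq_one_of_dvd_coprimes hqn h' dvd_rfl)
  have : IsNoetherianRing (O0 A) := by
    have := K0L.isDiscreteValuationRing_OI A S.hq S.hA
    infer_instance
  choose g hg using hroot
  have hord : ∀ P : Place (K0 A) S.F, (n : ℤ) ∣ P.ord (f : S.F) :=
    mem_kummerUnits0 A (M * q * q) n f hf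
  have hordΦ : ∀ P : Place (K0 A) S.F, (n : ℤ) ∣ P.ord (PhiSq S hF (f : S.F)) :=
    mem_kummerUnits0 A (M * q * q) n (PhiU σ hD S (PhiU σ hD S f))
      (PhiU_kummer σ hD S (PhiU_kummer σ hD S hf))
  obtain ⟨a, Ψ, -, -, e⟩ := ker_main (O := O0 A) (D := S.lvl) S.hq hqn hn
    (isUnit_natCast_O0 A S.hq S.hA hqn') h.good
    (jF_ne_zero (K0 A) (M * q * q)) h.chart₀ h.chart₁ h.triple h.p₀ h.p₁
    (fun z hz => shift_j hz) (fun z hz => shift_j_inv hz)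
    (fun z h0 h1 => exists_const_of_mem_RR_inter (algebraMap (K0 A) Kbar) h0 h1)
    (exists_q_pow_mul_mem A S.hq S.hA) (PhiSq S hF) (q * q) (comap_W_sq S hF)
    (fun r hr => PhiSq_mem_R₀ S hF hr)
    (fun 𝔫 _ _ hall r => frob_triple S hF (fun i z hz => h.chart₀.chart.le_W i z hz)
      (fun x => h.resA 0 (by decide) x) 𝔫 (hall 0) (hall 2) r)
    hu hord hordΦ g hg
  have h1 : IsRep S n (KV.mk ⟨_, hf⟩) f := ⟨hf, rfl⟩
  have h2 := isRep_PhiU σ hD S (isRep_PhiU σ hD S h1)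
  have h3 := isRep_nsmul S h1 (q * q)
  obtain ⟨hm, hx⟩ := h2.add h3.neg
  have e' : ((PhiU σ hD S (PhiU σ hD S f) * (f ^ (q * q))⁻¹ : S.Fˣ) : S.F)
      = algebraMap (K0 A) S.F a * Ψ ^ n := by
    have hfQ : (f : S.F) ^ (q * q) ≠ 0 := pow_ne_zero _ f.ne_zero
    have e2 : ((PhiU σ hD S (PhiU σ hD S f) : S.Fˣ) : S.F) = PhiSq S hF (f : S.F) := rfl
    rw [Units.val_mul, Units.val_inv_eq_inv_val, Units.val_pow_eq_pow_val, e2, e, mul_assoc,
      mul_inv_cancel₀ hfQ, mul_one]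
  have hz := mk_bc0_eq_zero A (M * q * q) hn.ne' _ hm a Ψ e'
  rw [hz] at hx
  exact (sub_eq_zero.1 (by rw [sub_eq_add_neg]; exact hx.symm))

/-- **field `deep`.** -/
theorem deep (hneat : 4 ∣ M ∨ 9 ∣ M) {σ : Kbar ≃ₐ[ℚ] Kbar} (hF : A.IsFrobeniusAt σ q) {n : ℕ}
    (hn : 0 < n) (hqn : n.Coprime q) (x : KV Kbar (FN (M * q * q)) n) (hx : ∀ i, x ∈ DD S n i) :
    frob n (M * q * q) σ (frob n (M * q * q) σ x) = ((q : ℤ) * q) • x :=
  deep_of_conc S hn hqn σ (fun f hf hu hroot => deep_conc S hneat hF hn hqn f hf hu hroot) x hx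

end Fermat.Agent.S43.Ctrl.Frob
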