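import Fermat.Agent.S43.Ctrl.Frob.Chart
import Fermat.Agent.GAL.Hecke.SeriesFrob

/-!
# S43 / Ctrl / Frob, file `Triple`: Kronecker congruences and the Frobenius congruence at the triple points

`σ` a Frobenius at `A`.  `Φ = PhiS σ`, `Φ_A = PhiA σ` (level `M q`).
* `kron0` : `β (Φ_A w) ≡ α (w) ^ q` along `W 0`;   `kron2` : `α (Φ_A w) ≡ β (w) ^ q` along `W 2`;
* `frob_triple` : `Φ (Φ r) - r ^ (q ^ 2) ∈ 𝔫` for every `r ∈ R₀` and every point `𝔫` of `R₀` lying on `W 0` and `W 2`.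
-/

set_option autoImplicit false
set_option linter.unusedSectionVars false

noncomputable section

namespace Fermat.Agent.S43.Ctrl.Frob

open AlgebraicCurve ModularCurve Fermat.Agent.S24 Fermat.Agent.GAL Fermat.Agent.GAL.Desc
  Fermat.Agent.GAL.Gauss Fermat.Agent.S36R Fermat.Agent.S36R.NormC Fermat.Agent.S36R.Bridge
  Fermat.Agent.S36.StepA

variable {A : ValuationSubring Kbar} {q : ℕ} (σ : Kbar ≃ₐ[ℚ] Kbar)
  (hσ : σ ∈ A.decompositionSubgroup ℚ) {M : ℕ} [NeZero M] [NeZero q] (S : Setup A M q)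

/-- `PhiF` at level `M q`. -/
abbrev PhiA : S.FA →+* S.FA := PhiF S.hq S.hA σ hσ (M * q)

theorem PhiS_al (w : S.FA) : PhiS σ hσ S (S.al w) = S.al (PhiA σ hσ S w) := by
  apply Subtype.ext
  rw [S.coe_al]
  show coeffMap _ ((S.al w : S.F) : LaurentSeries (K0 A)) = coeffMap _ (w : LaurentSeries (K0 A))
  rw [S.coe_al]

theorem PhiS_be (w : S.FA) : PhiS σ hσ S (S.be w) = S.be (PhiA σ hσ S w) := by
  apply Subtype.ext
  rw [S.coe_be]
  show coeffMap _ ((S.be w : S.F) : LaurentSeries (K0 A)) =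
    qExpand _ q (coeffMap _ (w : LaurentSeries (K0 A)))
  rw [S.coe_be, coeffMap_qExpand]

theorem d0_PhiA (w : S.FA) :
    S.d0 (PhiA σ hσ S w) = coeffMap (σ : Kbar →+* Kbar) (S.d0 w) := by
  rw [S.d0_apply, S.d0_apply, bc0_PhiF, coe_arithmeticGalois_smul]

theorem d1_PhiA (w : S.FA) :
    S.d1 (PhiA σ hσ S w) = coeffMap (σ : Kbar →+* Kbar) (S.d1 w) := by
  rw [S.d1_apply, S.d1_apply, bc0_PhiF]
  have h1 := NormC.wq_gal S.hq S.hqM σ (bc0 A (M * q) w)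
  have h2 : DR.wq M q (arithmeticGalois (modularFunctionFieldFull (M * q)) σ • bc0 A (M * q) w)
      = arithmeticGalois (modularFunctionFieldFull (M * q)) σ • DR.wq M q (bc0 A (M * q) w) := h1
  rw [h2, coe_arithmeticGalois_smul]

/-! ### Kronecker -/

section Kron

variable {σ} (hF : A.IsFrobeniusAt σ q)

include hF in
/-- reduction of `s^σ(t^q)`. -/
theorem red_frob_qExpand (hq : q.Prime) (hA : A.LiesOverPrime q) {s : LaurentSeries Kbar}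
    {r : LaurentSeries (IsLocalRing.ResidueField ↥A)} (h : Red A s r) :
    Red A (qExpand Kbar q (coeffMap (σ : Kbar →+* Kbar) s)) (r ^ q) := by
  have : Fact q.Prime := ⟨hq⟩
  have : CharP (IsLocalRing.ResidueField ↥A) q := Hecke.charP_residueField A hq hA
  have h1 := h.coeffMap ⟨σ, hF.mem_decompositionSubgroup⟩
  have h2 : coeffMap ((Fermat.Agent.DR.Conc.barAut A ⟨σ, hF.mem_decompositionSubgroup⟩ : _ ≃+* _) :
      _ →+* _) r = coeffMap (frobenius _ q) r := by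
    ext n
    exact hF.smul_residue_eq _
  rw [h2] at h1
  have h3 := h1.qExpand q
  rwa [← Hecke.pow_char_eq_qExpand] at h3

/-- `β (Φ_A w) ≡ α (w) ^ q` along `W 0`. -/
theorem kron0 (w : S.FA) (hw : w ∈ S.V 0) :
    Cg (S.W 0) (S.be (PhiA σ hF.mem_decompositionSubgroup S w)) (S.al w ^ q) := by
  obtain ⟨r, hr⟩ : ∃ r, Red A (S.d0 w) r := ⟨_, hw, rfl⟩
  refine cg_of_red (φ := S.e0) (h := S.normable_e0) (r := r ^ q) ?_ ?_
  · rw [S.e0_be, d0_PhiA]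
    exact red_frob_qExpand hF S.hq S.hA hr
  · rw [map_pow, S.e0_al]
    exact hr.pow q

/-- `α (Φ_A w) ≡ β (w) ^ q` along `W 2`. -/
theorem kron2 (w : S.FA) (hw : w ∈ S.V 1) :
    Cg (S.W 2) (S.al (PhiA σ hF.mem_decompositionSubgroup S w)) (S.be w ^ q) := by
  obtain ⟨r, hr⟩ : ∃ r, Red A (S.d1 w) r := ⟨_, hw, rfl⟩
  refine cg_of_red (φ := S.e2) (h := S.normable_e2) (r := r ^ q) ?_ ?_
  · rw [S.e2_al, d1_PhiA]
    exact red_frob_qExpand hF S.hq S.hA hr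
  · rw [map_pow, S.e2_be]
    exact hr.pow q

end Kron

/-! ### integrality -/

theorem mem_RR_of_al {w : S.FA} (h : S.al w ∈ S.R₀) : w ∈ RR (O0 A) S.jA := by
  have h' : S.al w ∈ RR (O0 A) ((S.al : S.FA →+* S.F) S.jA) := by
    rw [RingHom.coe_coe, S.al_jA]; exact h
  obtain ⟨P, hP, hcoe, hPs⟩ := exists_monic_of_mem_RR h'
  have h1 : ((S.al : S.FA →+* S.F).comp
      (algebraMap (Algebra.adjoin (O0 A) {S.jA}) S.FA)).IsIntegralElem (S.al w) :=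
    isIntegralElem_of_coeff _ hP
      (fun i => mem_range_of_mem_adjoin (S.al : S.FA →+* S.F) S.al_algebraMap_O0 S.jA (hcoe i)) hPs
  exact isIntegralElem_of_map _ (S.al : S.FA →+* S.F) (S.al : S.FA →+* S.F).injective h1

theorem be_mem_R₀ {w : S.FA} (h : S.al w ∈ S.R₀) : S.be w ∈ S.R₀ := by
  have h1 := mem_RR_of_al S h
  show S.be w ∈ RR (O0 A) S.j
  rw [S.RR_j_eq]
  exact map_mem_RR (S.be : S.FA →+* S.F)
    (fun a => by
      rw [RingHom.coe_coe, S.be_algebraMap_O0]; exact Subalgebra.algebraMap_mem _ a)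
    (Algebra.subset_adjoin (Set.mem_singleton _)) h1

/-! ### the triple points -/

section Triple

variable {σ} (hF : A.IsFrobeniusAt σ q)

/-- the square of the Frobenius. -/
abbrev PhiSq : S.F →+* S.F :=
  (PhiS σ hF.mem_decompositionSubgroup S).comp (PhiS σ hF.mem_decompositionSubgroup S)

theorem comap_W_sq (i : Fin 3) : (S.W i).comap (PhiSq S hF) = S.W i := by
  have h := comap_W σ hF.mem_decompositionSubgroup S i
  ext z
  rw [ValuationSubring.mem_comap]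
  show PhiS σ _ S (PhiS σ _ S z) ∈ S.W i ↔ _
  rw [← ValuationSubring.mem_comap, h, ← ValuationSubring.mem_comap, h]

theorem PhiSq_mem_R₀ {z : S.F} (hz : z ∈ S.R₀) : PhiSq S hF z ∈ S.R₀ :=
  PhiS_mem_R₀ σ _ S (PhiS_mem_R₀ σ _ S hz)

theorem mk_eq_of_cg {𝔫 : Ideal S.R₀} {i : Fin 3} (hi : Inj.Thru S.W 𝔫 i) {x y : S.R₀}
    (h : Cg (S.W i) (x : S.F) (y : S.F)) : Ideal.Quotient.mk 𝔫 x = Ideal.Quotient.mk 𝔫 y := by
  apply Ideal.Quotient.eq.2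
  apply hi
  have : ((x - y : S.R₀) : S.F) = (x : S.F) - (y : S.F) := by push_cast; ring
  rw [this]
  exact h

/-- **the Frobenius congruence** at a point lying on `W 0` and `W 2`. -/
theorem frob_triple (hle : ∀ i, ∀ z ∈ S.R₀, z ∈ S.W i)
    (resA : ∀ x : S.R₀, ∃ w : S.FA, S.al w ∈ S.R₀ ∧ Cg (S.W 0) x (S.al w))
    (𝔫 : Ideal S.R₀) (h0 : Inj.Thru S.W 𝔫 0) (h2 : Inj.Thru S.W 𝔫 2) (r : S.R₀) :
    (⟨PhiSq S hF r, PhiSq_mem_R₀ S hF r.2⟩ : S.R₀) - r ^ (q * q) ∈ 𝔫 := by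
  have hD := hF.mem_decompositionSubgroup
  obtain ⟨w, hwR, hw⟩ := resA r
  -- the elements of `R₀`
  have hΦa : S.al (PhiA σ hD S w) ∈ S.R₀ := by rw [← PhiS_al]; exact PhiS_mem_R₀ σ hD S hwR
  have hb : S.be (PhiA σ hD S w) ∈ S.R₀ := be_mem_R₀ S hΦa
  have hΦΦa : S.al (PhiA σ hD S (PhiA σ hD S w)) ∈ S.R₀ := by
    rw [← PhiS_al]; exact PhiS_mem_R₀ σ hD S hΦa
  have hwV0 : w ∈ S.V 0 := (mem_of_comap S.al0).2 (hle 0 _ hwR)
  have hΦwV1 : PhiA σ hD S w ∈ S.V 1 := (mem_of_comap S.al2).2 (hle 2 _ hΦa)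
  -- congruences
  have e1 : Ideal.Quotient.mk 𝔫 r = Ideal.Quotient.mk 𝔫 (⟨_, hwR⟩ : S.R₀) := mk_eq_of_cg S h0 hw
  have e2 : Ideal.Quotient.mk 𝔫 (⟨PhiSq S hF r, PhiSq_mem_R₀ S hF r.2⟩ : S.R₀)
      = Ideal.Quotient.mk 𝔫 (⟨_, hΦΦa⟩ : S.R₀) := by
    apply mk_eq_of_cg S h0
    have := (cg_comap (comap_W_sq S hF 0)).1 hw
    have e : PhiSq S hF (S.al w) = S.al (PhiA σ hD S (PhiA σ hD S w)) := by
      show PhiS σ _ S (PhiS σ _ S (S.al w)) = _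
      rw [PhiS_al, PhiS_al]
    rwa [e] at this
  have e3 : Ideal.Quotient.mk 𝔫 (⟨_, hΦΦa⟩ : S.R₀) = Ideal.Quotient.mk 𝔫 ((⟨_, hb⟩ : S.R₀) ^ q) :=
    mk_eq_of_cg S h2 (by push_cast; exact kron2 S hF _ hΦwV1)
  have e4 : Ideal.Quotient.mk 𝔫 (⟨_, hb⟩ : S.R₀) = Ideal.Quotient.mk 𝔫 ((⟨_, hwR⟩ : S.R₀) ^ q) :=
    mk_eq_of_cg S h0 (by push_cast; exact kron0 S hF _ hwV0)
  apply Ideal.Quotient.eq.1
  rw [e2, e3, map_pow, e4, map_pow, map_pow, e1, ← pow_mul]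

end Triple

end Fermat.Agent.S43.Ctrl.Frob
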